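import Fermat.Agent.Corollaries.GRU.Glue
import Fermat.Agent.Corollaries.CFTP.Conv
import Fermat.Agent.TW.InertiaField

/-!
# Grunwald's theorem for characters of prime order

`K` is a number field, `p` a prime, `p ≠ 2` or `K` totally complex.

* `eq_one_of_decomp`: a continuous homomorphism of `G_K` which is trivial on the inertia group and on the
  Frobenius elements at `v` is trivial on the decomposition group;
* `grunwald`: for a finite set `S` of finite places and continuous characters `ψ_v : G_K → ℤ/p`, `v ∈ S`,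
  there is a continuous character `Ψ : G_K → ℤ/p` which coincides with `ψ_v` on the decomposition groups of
  all places of `ℚ̄` above `v`, for all `v ∈ S`.
-/

set_option autoImplicit false

namespace Fermat.Agent.Cor.GRU

open NumberField IsDedekindDomain
open Fermat.Agent.Frob Fermat.Agent.FrobDensity Fermat.Agent.Minkowski
open Fermat.Agent.LT Fermat.Agent.LT.Tower.Fr
open Fermat.Agent.Cor.Diff (GK FrobAt)
open Fermat.Agent.Cor.CFTP (C Lev Exact artin_existence artin_reciprocity eq_of_exact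
  exists_frobAt_over inv_mul_mem_inertia isFrobeniusAt_inertia_mul)
open scoped Pointwise

section Decomp

variable {A : ValuationSubring (AlgebraicClosure ℚ)}

/-- A Frobenius element times an inertia element is a Frobenius element. -/
theorem isFrobeniusAt_mul_inertia {q : ℕ} {τ φ : GQ} (hτ : τ ∈ A.inertiaSubgroupIn ℚ)
    (hφ : A.IsFrobeniusAt φ q) : A.IsFrobeniusAt (φ * τ) q := by
  have hd : φ ∈ A.decompositionSubgroup ℚ := hφ.mem_decompositionSubgroup
  have h1 : φ * τ * φ⁻¹ ∈ A.inertiaSubgroupIn ℚ := by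
    have h2 := Fermat.Agent.TW.conj_mem_inertia_of_decomp (inv_mem hd) hτ
    rwa [inv_inv] at h2
  have h3 := isFrobeniusAt_inertia_mul h1 hφ
  rwa [inv_mul_cancel_right] at h3

variable {K : Type*} [Field K] [NumberField K] {i : K →+* AlgebraicClosure ℚ}
  {v : HeightOneSpectrum (𝓞 K)}

/-- The residue degree divides `k` if a Frobenius element for `q ^ k` fixes `K`. -/
theorem dvd_of_frob {q : ℕ} (hq : q.Prime) (h : Over i A v) {s : GQ} {k f : ℕ}
    (hs : A.IsFrobeniusAt s (q ^ k)) (hsi : ∀ x, s (i x) = i x)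
    (hf : Ideal.absNorm v.asIdeal = q ^ f) : f ∣ k := by
  let _ := fieldQuot v
  have hsi' : (gh s).comp i = i := RingHom.ext hsi
  have hx : ∀ x : 𝓞 K ⧸ v.asIdeal, x ^ q ^ k = x := by
    intro x
    obtain ⟨x, rfl⟩ := Ideal.Quotient.mk_surjective x
    rw [← map_pow, Ideal.Quotient.eq, h.mem_iff, map_sub, map_pow, sub_eq_zero,
      ← redτ_frob hs, hsi']
  obtain ⟨g, hg⟩ := IsCyclic.exists_ofOrder_eq_natCard (α := (𝓞 K ⧸ v.asIdeal)ˣ)
  have h1 : orderOf g = q ^ f - 1 := by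
    rw [hg, Nat.card_units, natCard_quot, hf]
  have h2 : g ^ (q ^ k - 1) = 1 := by
    have h3 : g ^ q ^ k = g := Units.ext (by rw [Units.val_pow_eq_pow_val]; exact hx g)
    have h4 : g ^ (q ^ k - 1) * g = g := by
      rw [← pow_succ, Nat.sub_add_cancel (Nat.one_le_pow _ _ hq.pos), h3]
    exact mul_eq_right.mp h4
  have h5 : q ^ f - 1 ∣ q ^ k - 1 := by rw [← h1]; exact orderOf_dvd_of_pow_eq_one h2
  have h6 := Nat.pow_sub_one_gcd_pow_sub_one q f k
  rw [Nat.gcd_eq_left h5] at h6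
  have h7 : q ^ f = q ^ Nat.gcd f k := by
    have h8 := Nat.one_le_pow f q hq.pos
    have h9 := Nat.one_le_pow (Nat.gcd f k) q hq.pos
    omega
  have h10 : f = Nat.gcd f k := Nat.pow_right_injective hq.two_le h7
  rw [h10]
  exact Nat.gcd_dvd_right f k

/-- **A homomorphism trivial on inertia and Frobenius is trivial on the decomposition group.** -/
theorem eq_one_of_decomp (hA : Over i A v) {M : Type*} [Group M] {φ : GK i →* M} (lφ : Lev φ)
    (hunr : ∀ g : GK i, g.1 ∈ A.inertiaSubgroupIn ℚ → φ g = 1)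
    (hfrob : ∀ g : GK i, A.IsFrobeniusAt g.1 (Ideal.absNorm v.asIdeal) → φ g = 1)
    {g : GK i} (hg : g.1 ∈ A.decompositionSubgroup ℚ) : φ g = 1 := by
  obtain ⟨L, hL, hφL⟩ := lφ
  obtain ⟨q, hq, hqv⟩ := exists_prime_mem v
  have hAq : A.LiesOverPrime q := hA.natCast_mem_iff.mp hqv
  obtain ⟨σ, hσ⟩ := exists_isFrobeniusAt hq hAq
  let L₁ : IntermediateField ℚ (AlgebraicClosure ℚ) := i.toRatAlgHom.fieldRange
  have hL₁ : FiniteDimensional ℚ L₁ :=
    LinearEquiv.finiteDimensional (AlgEquiv.ofInjectiveField i.toRatAlgHom).toLinearEquiv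
  have hLL : FiniteDimensional ℚ (L ⊔ L₁ : IntermediateField ℚ (AlgebraicClosure ℚ)) :=
    IntermediateField.finiteDimensional_sup _ _
  obtain ⟨F, hLF, hF, hG⟩ := Fermat.Agent.TW.exists_galois_ge (L ⊔ L₁)
  obtain ⟨m, τ, hτ, h1⟩ := Fermat.Agent.TW.exists_frob_pow_mul_inertia hq hAq hσ F hg
  have hiF : ∀ x : K, i x ∈ F := fun x => hLF ((le_sup_right : L₁ ≤ L ⊔ L₁) ⟨x, rfl⟩)
  have hs : A.IsFrobeniusAt (σ ^ m * τ) (q ^ m) :=
    isFrobeniusAt_mul_inertia hτ (isFrobeniusAt_pow hσ m)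
  have hsi : ∀ x, (σ ^ m * τ) (i x) = i x := fun x => by
    rw [← h1 _ (hiF x)]
    exact g.2 x
  obtain ⟨f, -, hf⟩ := exists_absNorm_eq_pow hq hqv
  obtain ⟨k, rfl⟩ := dvd_of_frob hq hA hs hsi hf
  obtain ⟨h, hh⟩ := exists_frobAt_over hA
  have hhk : A.IsFrobeniusAt (h.1 ^ k) (q ^ (f * k)) := by
    have h2 := isFrobeniusAt_pow hh k
    rwa [hf, ← pow_mul] at h2
  -- the inertia element
  have hin := inv_mul_mem_inertia hs hhk
  have hmem : (h.1 ^ k)⁻¹ * (σ ^ (f * k) * τ) ∈ GK i := by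
    intro x
    rw [AlgEquiv.mul_apply, hsi x]
    exact (inv_mem (pow_mem h.2 k) : (h.1 ^ k)⁻¹ ∈ GK i) x
  set ι : GK i := ⟨(h.1 ^ k)⁻¹ * (σ ^ (f * k) * τ), hmem⟩ with hι
  have h3 : φ ι = 1 := hunr ι hin
  have h4 : φ ((h ^ k * ι)⁻¹ * g) = 1 := by
    apply hφL
    intro x hx
    have h5 : ((h ^ k * ι : GK i).1)⁻¹ * g.1 = (σ ^ (f * k) * τ)⁻¹ * g.1 := by
      change (h.1 ^ k * ((h.1 ^ k)⁻¹ * (σ ^ (f * k) * τ)))⁻¹ * g.1 = _
      rw [mul_inv_cancel_left]
    change (((h ^ k * ι : GK i).1)⁻¹ * g.1) x = x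
    rw [h5, AlgEquiv.mul_apply, h1 x (hLF ((le_sup_left : L ≤ L ⊔ L₁) hx))]
    exact AlgEquiv.symm_apply_apply _ _
  rw [map_mul, map_inv, map_mul, h3, map_pow, hfrob h hh, one_pow, one_mul, inv_one, one_mul]
    at h4
  exact h4

end Decomp

variable {p : ℕ} [hp : Fact p.Prime] {K : Type} [Field K] [NumberField K]

/-- **Grunwald's theorem (1933) for characters of prime order**: let `S` be a finite set of finite places
of the number field `K` and `ψ_v : G_K → ℤ/p`, `v ∈ S`, continuous characters (`p ≠ 2` or `K` totally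
complex). There is a continuous character `Ψ : G_K → ℤ/p` with `Ψ = ψ_v` on the decomposition groups at
`v`, for all `v ∈ S`. -/
theorem grunwald (hK : p ≠ 2 ∨ IsTotallyComplex K) (i : K →+* AlgebraicClosure ℚ)
    (S : Finset (HeightOneSpectrum (𝓞 K))) (ψ : HeightOneSpectrum (𝓞 K) → (GK i →* C p))
    (hψ : ∀ v ∈ S, Lev (ψ v)) :
    ∃ Ψ : GK i →* C p, Lev Ψ ∧ ∀ v ∈ S, ∀ A : ValuationSubring (AlgebraicClosure ℚ),
      Over i A v → ∀ g : GK i, g.1 ∈ A.decompositionSubgroup ℚ → Ψ g = ψ v g := by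
  classical
  have hex : ∀ v, ∃ (S₁ : Finset (HeightOneSpectrum (𝓞 K))) (n : ℕ)
      (η : HeightOneSpectrum (𝓞 K) → ZMod p), v ∈ S → IsRay S₁ n η ∧
        ∀ u, u ∉ S₁ → ∀ g : GK i, FrobAt g u → ψ v g = Multiplicative.ofAdd (η u) := by
    intro v
    by_cases hv : v ∈ S
    · obtain ⟨S₁, n, η, h⟩ := artin_reciprocity hK i (ψ v) (hψ v hv)
      exact ⟨S₁, n, η, fun _ => h⟩
    · exact ⟨∅, 0, 0, fun h => absurd h hv⟩
  choose S₁ n η hη using hex
  set S' : Finset (HeightOneSpectrum (𝓞 K)) := S ∪ S.biUnion S₁ with hS'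
  have hS₁ : ∀ v ∈ S, S₁ v ⊆ S' := fun v hv =>
    (Finset.subset_biUnion_of_mem S₁ hv).trans Finset.subset_union_right
  obtain ⟨T, θ, hT, hθ, hglue⟩ := grunwald_glue (S := S) (S' := S') Finset.subset_union_left
    (n := S.sup n) η fun v hv => ((hη v hv).1.mono (Finset.le_sup hv)).mono_set (hS₁ v hv)
  obtain ⟨Ψ, lΨ, hΨu, hΨ⟩ := artin_existence hK i hθ
  refine ⟨Ψ, lΨ, fun v hv A hA g hg => ?_⟩
  obtain ⟨φ, lφ, hφu, hφ⟩ := artin_existence hK i (hglue v hv)
  have heq : Ψ = φ * ψ v := by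
    refine eq_of_exact lΨ (lφ.mul (hψ v hv)) (η := θ) ⟨S ∪ T, hΨ⟩ ⟨S' ∪ T, fun u hu g hg => ?_⟩
    have huS' : u ∉ S' := fun h => hu (Finset.mem_union_left _ h)
    have huv : u ≠ v := by
      rintro rfl
      exact huS' (Finset.mem_union_left _ hv)
    rw [MonoidHom.mul_apply, hφ u (fun h => hu (Finset.mem_of_mem_erase h)) g hg,
      (hη v hv).2 u (fun h => huS' (hS₁ v hv h)) g hg, if_neg huv, ← ofAdd_add, sub_add_cancel]
  have h1 : φ g = 1 := by
    refine eq_one_of_decomp hA lφ (fun g hg => hφu v (Finset.notMem_erase _ _) A hA g hg)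
      (fun g hg => ?_) hg
    rw [hφ v (Finset.notMem_erase _ _) g ⟨A, hA, hg⟩, if_pos rfl, ofAdd_zero]
  rw [heq, MonoidHom.mul_apply, h1, one_mul]

end Fermat.Agent.Cor.GRU
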