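import Fermat.Agent.Corollaries.GRU.Main
import Fermat.Agent.Corollaries.CFTP.ClassField

/-!
# Grunwald's theorem: cyclic extensions of prime degree with prescribed local behaviour

`K` is a number field, `p` a prime, `p ≠ 2` or `K` totally complex, `S` a finite set of finite places.

* `exists_character`: a continuous character `ψ : G_K → ℤ/p`, unramified at the places in `S`, with
  prescribed values at the Frobenius elements of all `v ∈ S`;
* `exists_cyclic`: a cyclic extension `L / K` of degree `p`, unramified at the places in `S`, in which the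
  places of a given subset split completely and the others are inert.
-/

set_option autoImplicit false

namespace Fermat.Agent.Cor.GRU

open NumberField IsDedekindDomain
open Fermat.Agent.Frob Fermat.Agent.LT Fermat.Agent.LT.Tower.Fr
open Fermat.Agent.Cor.Diff (GK FrobAt)
open Fermat.Agent.Cor.CFTP (C Lev artin_existence exists_classField)
open scoped Pointwise

variable {p : ℕ} [hp : Fact p.Prime] {K : Type} [Field K] [NumberField K]

/-- **Grunwald's theorem, unramified conditions**: a continuous character of order `p` of `G_K`,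
unramified outside a finite set `T` of places prime to `p`, to `S` and to any given finite set `B`,
with prescribed values at the Frobenius elements of all `v ∈ S`. -/
theorem exists_character (hK : p ≠ 2 ∨ IsTotallyComplex K) (i : K →+* AlgebraicClosure ℚ)
    (S B : Finset (HeightOneSpectrum (𝓞 K))) (f : HeightOneSpectrum (𝓞 K) → ZMod p) :
    ∃ (T : Finset (HeightOneSpectrum (𝓞 K))) (ψ : GK i →* C p), Lev ψ ∧
      (∀ v ∈ T, v ∉ S ∧ v ∉ B ∧ (p : 𝓞 K) ∉ v.asIdeal) ∧
      (∀ v, v ∉ T → ∀ A : ValuationSubring (AlgebraicClosure ℚ), Over i A v → ∀ g : GK i,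
        g.1 ∈ A.inertiaSubgroupIn ℚ → ψ g = 1) ∧
      ∀ v ∈ S, ∀ g : GK i, FrobAt g v → ψ g = Multiplicative.ofAdd (f v) := by
  obtain ⟨T, η, hT, hη, hf⟩ := exists_ray_values S B f
  obtain ⟨ψ, lψ, hunr, hex⟩ := artin_existence hK i hη
  refine ⟨T, ψ, lψ, hT, hunr, fun v hv g hg => ?_⟩
  rw [hex v (fun hvT => (hT v hvT).1 hv) g hg, hf v hv]

omit hp in
/-- The residue degree in a Galois extension of prime degree is `1` or `p`. -/
theorem inertiaDeg_eq (hp : p.Prime) {L : Type} [Field L] [NumberField L] [Algebra K L]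
    [IsGalois K L] (hL : Module.finrank K L = p) (w : HeightOneSpectrum (𝓞 L))
    (h1 : (w.under (𝓞 K)).asIdeal.inertiaDeg' w.asIdeal ≠ 1) :
    (w.under (𝓞 K)).asIdeal.inertiaDeg' w.asIdeal = p := by
  have h := Ideal.card_stabilizer_eq (G := Gal(L/K)) (w.under (𝓞 K)).asIdeal w.asIdeal
  rw [Ideal.inertiaDegIn_eq_inertiaDeg (w.under (𝓞 K)).asIdeal w.asIdeal Gal(L/K),
    ← Ideal.inertiaDeg'_eq_inertiaDeg (p := (w.under (𝓞 K)).asIdeal)] at h
  have h2 := Subgroup.card_subgroup_dvd_card (MulAction.stabilizer Gal(L/K) w.asIdeal)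
  rw [h, IsGalois.card_aut_eq_finrank, hL] at h2
  exact ((Nat.dvd_prime hp).mp ((dvd_mul_left _ _).trans h2)).resolve_left h1

/-- **Cyclic extensions with prescribed splitting**: for disjoint finite sets `A`, `B` of finite places of
`K` there is a Galois extension `L / K` of degree `p`, unramified at all places in `A ∪ B`, in which every
`v ∈ A` splits completely and every `v ∈ B` is inert. -/
theorem exists_cyclic (hK : p ≠ 2 ∨ IsTotallyComplex K) (A B : Finset (HeightOneSpectrum (𝓞 K)))
    (hAB : ∀ v ∈ A, v ∉ B) :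
    ∃ (L : Type) (_ : Field L) (_ : NumberField L) (_ : Algebra K L), IsGalois K L ∧
      Module.finrank K L = p ∧
      (∀ w : HeightOneSpectrum (𝓞 L), w.under (𝓞 K) ∈ A →
        (w.under (𝓞 K)).asIdeal.ramificationIdx' w.asIdeal = 1 ∧
        (w.under (𝓞 K)).asIdeal.inertiaDeg' w.asIdeal = 1) ∧
      ∀ w : HeightOneSpectrum (𝓞 L), w.under (𝓞 K) ∈ B →
        (w.under (𝓞 K)).asIdeal.ramificationIdx' w.asIdeal = 1 ∧
        (w.under (𝓞 K)).asIdeal.inertiaDeg' w.asIdeal = p := by
  classical
  -- an additional place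
  obtain ⟨u, hu⟩ : ∃ u : HeightOneSpectrum (𝓞 K), u ∉ A ∪ B := by
    obtain ⟨v⟩ := Fermat.Agent.CFT.Global.nonempty_places (K := K)
    obtain ⟨y, hy⟩ := Fermat.Agent.CFT.Global.exists_notMem_locPow_at hp.out v
    obtain ⟨u, hu, -⟩ := exists_notMem_locPow hp.out (A ∪ B)
      (Fermat.Agent.CFT.Global.not_pow_of_notMem_locPow hy)
    exact ⟨u, hu⟩
  have huA : u ∉ A := fun h => hu (Finset.mem_union_left _ h)
  have huB : u ∉ B := fun h => hu (Finset.mem_union_right _ h)
  obtain ⟨T, η, hT, hη, hf⟩ := exists_ray_values (p := p) (insert u (A ∪ B)) ∅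
    (fun v => if v ∈ A then 0 else 1)
  have hTn : ∀ v ∈ insert u (A ∪ B), v ∉ T := fun v hv hvT => (hT v hvT).1 hv
  obtain ⟨L, fL, nL, aL, gL, hL, h⟩ := exists_classField hK hη
    ⟨u, hTn u (Finset.mem_insert_self _ _), by
      rw [hf u (Finset.mem_insert_self _ _), if_neg huA]
      exact one_ne_zero⟩
  refine ⟨L, fL, nL, aL, gL, hL, fun w hw => ?_, fun w hw => ?_⟩
  · have h1 : w.under (𝓞 K) ∈ insert u (A ∪ B) :=
      Finset.mem_insert_of_mem (Finset.mem_union_left _ hw)
    obtain ⟨h2, h3⟩ := h w (hTn _ h1)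
    exact ⟨h2, h3.mpr (by rw [hf _ h1, if_pos hw])⟩
  · have h1 : w.under (𝓞 K) ∈ insert u (A ∪ B) :=
      Finset.mem_insert_of_mem (Finset.mem_union_right _ hw)
    obtain ⟨h2, h3⟩ := h w (hTn _ h1)
    refine ⟨h2, inertiaDeg_eq hp.out hL w fun h4 => ?_⟩
    have h5 := h3.mp h4
    rw [hf _ h1, if_neg (fun hA => hAB _ hA hw)] at h5
    exact one_ne_zero h5

end Fermat.Agent.Cor.GRU
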