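import Fermat.Agent.Corollaries.GRU.Main

/-!
# Local components of ray class characters; gluing

`K` is a number field, `p` a prime.

* `exists_loc`: the local component at `v` of a ray class character;
* `grunwald_glue`: for a finite set `S` of places and ray class characters `η_v`, `v ∈ S`, there is a ray
  class character `θ` which has the same local component as `η_v` at every `v ∈ S`: the difference `θ - η_v`,
  with the value `0` at `v`, is a ray class character whose modulus is prime to `v`.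
-/

set_option autoImplicit false

namespace Fermat.Agent.Cor.GRU

open NumberField IsDedekindDomain HeightOneSpectrum WithZero
open Fermat.Agent.CFT.Global
open Fermat.Agent.CFT.SUnits (ord div)
open Fermat.Agent.LT

variable {K : Type*} [Field K] [NumberField K] {p : ℕ}

/-- **The local component** at `v` of a ray class character with modulus on `S`. -/
theorem exists_loc {S : Finset (HeightOneSpectrum (𝓞 K))} {n : ℕ}
    {η : HeightOneSpectrum (𝓞 K) → ZMod p} (hη : IsRay S n η) (v : HeightOneSpectrum (𝓞 K)) :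
    ∃ χ : Kˣ →* Multiplicative (ZMod p), (∀ x ∈ cong v n, χ x = 1) ∧
      ∀ y : Kˣ, (∀ w ∈ S, w ≠ v → y ∈ cong w n) → rayVal S η y * χ y = 1 := by
  classical
  have hex : ∀ x : Kˣ, ∃ y : Kˣ, y / x ∈ cong v n ∧ ∀ w ∈ S, w ≠ v → y ∈ cong w n := by
    intro x
    obtain ⟨y, hy⟩ := indep_cong (insert v S) n (fun w => if w = v then x else 1)
    refine ⟨y, ?_, fun w hw hwv => ?_⟩
    · have h1 := hy v (Finset.mem_insert_self _ _)
      rwa [if_pos rfl] at h1
    · have h1 := hy w (Finset.mem_insert_of_mem hw)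
      rwa [if_neg hwv, div_one] at h1
  choose y hy1 hy2 using hex
  -- the value depends only on the class
  have key : ∀ a b : Kˣ, a / b ∈ cong v n → (∀ w ∈ S, w ≠ v → a / b ∈ cong w n) →
      rayVal S η a = rayVal S η b := by
    intro a b h1 h2
    have h3 : rayVal S η (a / b) = 1 := hη _ fun w hw => by
      by_cases hwv : w = v
      · rw [hwv]
        exact h1
      · exact h2 w hw hwv
    rwa [map_div, div_eq_one] at h3
  refine ⟨⟨⟨fun x => (rayVal S η (y x))⁻¹, ?_⟩, fun a b => ?_⟩, fun x hx => ?_, fun x hx => ?_⟩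
  · change (rayVal S η (y 1))⁻¹ = 1
    rw [inv_eq_one, ← map_one (rayVal S η)]
    exact key _ _ (hy1 1) fun w hw hwv => by
      rw [div_one]
      exact hy2 1 w hw hwv
  · change (rayVal S η (y (a * b)))⁻¹ = (rayVal S η (y a))⁻¹ * (rayVal S η (y b))⁻¹
    rw [← mul_inv, ← map_mul]
    congr 1
    refine key _ _ ?_ fun w hw hwv => div_mem (hy2 _ w hw hwv)
      (mul_mem (hy2 _ w hw hwv) (hy2 _ w hw hwv))
    have h1 : y (a * b) / (y a * y b) = y (a * b) / (a * b) / ((y a / a) * (y b / b)) := by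
      rw [div_mul_div_comm, div_div_div_cancel_right]
    rw [h1]
    exact div_mem (hy1 _) (mul_mem (hy1 _) (hy1 _))
  · change (rayVal S η (y x))⁻¹ = 1
    rw [inv_eq_one, ← map_one (rayVal S η)]
    refine key _ _ ?_ fun w hw hwv => by
      rw [div_one]
      exact hy2 x w hw hwv
    rw [div_one]
    have h1 := mul_mem (hy1 x) hx
    rwa [div_mul_cancel] at h1
  · change rayVal S η x * (rayVal S η (y x))⁻¹ = 1
    rw [mul_inv_eq_one]
    exact (key _ _ (hy1 x) fun w hw hwv => div_mem (hy2 x w hw hwv) (hx w hw hwv)).symm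

open Classical in
/-- **Gluing of ray class characters of prime order.** -/
theorem grunwald_glue [hp : Fact p.Prime] {S S' : Finset (HeightOneSpectrum (𝓞 K))}
    (hSS : S ⊆ S') {n : ℕ} (η : HeightOneSpectrum (𝓞 K) → HeightOneSpectrum (𝓞 K) → ZMod p)
    (hη : ∀ v ∈ S, IsRay S' n (η v)) :
    ∃ (T : Finset (HeightOneSpectrum (𝓞 K))) (θ : HeightOneSpectrum (𝓞 K) → ZMod p),
      (∀ v ∈ T, v ∉ S' ∧ (p : 𝓞 K) ∉ v.asIdeal) ∧ IsRay (S ∪ T) n θ ∧
      ∀ v ∈ S, IsRay ((S' ∪ T).erase v) n (fun w => if w = v then 0 else θ w - η v w) := by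
  have hloc : ∀ v, ∃ χ : Kˣ →* Multiplicative (ZMod p), v ∈ S → (∀ x ∈ cong v n, χ x = 1) ∧
      ∀ y : Kˣ, (∀ w ∈ S', w ≠ v → y ∈ cong w n) → rayVal S' (η v) y * χ y = 1 := by
    intro v
    by_cases hv : v ∈ S
    · obtain ⟨χ, h⟩ := exists_loc (hη v hv) v
      exact ⟨χ, fun _ => h⟩
    · exact ⟨1, fun h => absurd h hv⟩
  choose χ hχ using hloc
  obtain ⟨T, θ, hT, hθ, hx⟩ := grunwald_ray S S' (∏ v ∈ S, χ v) (m := n) (fun x hx => by
    rw [MonoidHom.finsetProd_apply]
    exact Finset.prod_eq_one fun v hv => (hχ v hv).1 x (hx v hv))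
  refine ⟨T, θ, fun v hv => (hT v hv).2, hθ, fun v hv x hxM => ?_⟩
  have hmem : ∀ w ∈ S' ∪ T, w ≠ v → x ∈ cong w n := fun w hw hwv =>
    hxM w (Finset.mem_erase.mpr ⟨hwv, hw⟩)
  have hvT : v ∉ T := fun h => (hT v h).1 hv
  have h1 : rayVal (S ∪ T) θ x * χ v x = 1 := by
    have h2 := hx x fun w hw => cong_anti w (Nat.zero_le n)
      (hmem w (Finset.mem_union_right _ hw) fun h => hvT (h ▸ hw))
    rw [MonoidHom.finsetProd_apply, Finset.prod_eq_single v] at h2
    · exact h2
    · intro u hu huv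
      exact (hχ u hu).1 x (hmem u (Finset.mem_union_left _ (hSS hu)) huv)
    · exact fun h => absurd hv h
  have h2 : rayVal S' (η v) x * χ v x = 1 :=
    (hχ v hv).2 x fun w hw hwv => hmem w (Finset.mem_union_left _ hw) hwv
  have h3 : rayVal (S ∪ T) θ x = rayVal S' (η v) x := mul_right_cancel (h1.trans h2.symm)
  have h4 : rayVal ((S' ∪ T).erase v) (fun w => if w = v then 0 else θ w - η v w) x *
      rayVal S' (η v) x = rayVal (S ∪ T) θ x := by
    apply Multiplicative.toAdd.injective
    rw [toAdd_mul, toAdd_rayVal, toAdd_rayVal, toAdd_rayVal, ← Finsupp.sum_add]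
    refine Finsupp.sum_congr fun w _ => ?_
    by_cases hwv : w = v
    · subst hwv
      simp [hv, hSS hv]
    by_cases hw : w ∈ S' ∪ T
    · have h5 : div x w = 0 := ord_eq_zero_of_mem_cong (hmem w hw hwv)
      rw [h5]
      simp
    · have h6 : w ∉ S' := fun h => hw (Finset.mem_union_left _ h)
      have h7 : w ∉ T := fun h => hw (Finset.mem_union_right _ h)
      have h8 : w ∉ S := fun h => h6 (hSS h)
      simp [hwv, h6, h7, h8, smul_sub]
  rw [h3] at h4
  exact mul_eq_right.mp h4

end Fermat.Agent.Cor.GRU
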