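import Fermat.Agent.Corollaries.GRU.Places
import Fermat.Agent.CFT.Global.LocalIndex

/-!
# Grunwald's theorem for ray class characters of prime order

`K` is a number field, `p` a prime, `S` a finite set of finite places.

* `exists_ray`: for every homomorphism `χ : Kˣ → ℤ/p` there are a finite set `T` of places, disjoint from
  `S`, and a function `η` with `∑_{v ∉ S ∪ T} ord_v(x) η(v) = -χ(x)` for all `x ≡ 1` modulo `T`;
* `grunwald_ray`: if `χ` is continuous for the topology of `∏_{v ∈ S} K_v`, then `η` is a ray class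
  character: every continuous character of order `p` of `∏_{v ∈ S} K_vˣ` is the restriction of a
  character of the idele class group;
* `exists_ray_values`: there is a ray class character `η`, with modulus prime to `S`, with prescribed
  values at the places in `S`.
-/

set_option autoImplicit false

namespace Fermat.Agent.Cor.GRU

open NumberField IsDedekindDomain HeightOneSpectrum WithZero
open Fermat.Agent.CFT.Global
open Fermat.Agent.CFT.SUnits (ord div)
open Fermat.Agent.LT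

variable {K : Type*} [Field K] [NumberField K] {p : ℕ}

/-- The divisor outside `S` modulo `p`. -/
noncomputable abbrev dv (p : ℕ) (S : Finset (HeightOneSpectrum (𝓞 K))) :
    Kˣ →* Multiplicative (HeightOneSpectrum (𝓞 K) →₀ ZMod p) :=
  rayVal S fun v => Finsupp.single v (1 : ZMod p)

theorem dv_apply (S : Finset (HeightOneSpectrum (𝓞 K))) (x : Kˣ) {v : HeightOneSpectrum (𝓞 K)}
    (hv : v ∉ S) : (dv p S x).toAdd v = (ord v x : ZMod p) := by
  classical
  have h1 := rayVal_comp (Finsupp.applyAddHom v : (HeightOneSpectrum (𝓞 K) →₀ ZMod p) →+ ZMod p) S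
    (fun v => Finsupp.single v (1 : ZMod p)) x
  rw [Finsupp.applyAddHom_apply] at h1
  rw [← h1, toAdd_rayVal_eq_sum S {v} _ x, Finset.sum_singleton, if_neg hv,
    Finsupp.applyAddHom_apply, Finsupp.single_eq_same, zsmul_one]
  intro w hw _
  rw [Finset.mem_singleton] at hw
  rw [Finsupp.applyAddHom_apply, Finsupp.single_eq_of_ne (Ne.symm hw), smul_zero]

open Classical in
/-- **The heart of Grunwald's theorem.** -/
theorem exists_ray [hp : Fact p.Prime] (S B : Finset (HeightOneSpectrum (𝓞 K)))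
    (χ : Kˣ →* Multiplicative (ZMod p)) :
    ∃ (T : Finset (HeightOneSpectrum (𝓞 K))) (η : HeightOneSpectrum (𝓞 K) → ZMod p),
      (∀ v ∈ T, v ∉ S ∧ v ∉ B ∧ (p : 𝓞 K) ∉ v.asIdeal) ∧
      ∀ x : Kˣ, (∀ v ∈ T, x ∈ cong v 0) → rayVal (S ∪ T) η x = (χ x)⁻¹ := by
  obtain ⟨T, hT, hTx⟩ := exists_aux hp.out S
    (B ∪ (finite_aboveP (K := K) p hp.out.ne_zero).toFinset)
  have hT' : ∀ v ∈ T, v ∉ S ∧ v ∉ B ∧ (p : 𝓞 K) ∉ v.asIdeal := by
    intro v hv
    have h1 := (hT v hv).2
    rw [Finset.mem_union, not_or] at h1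
    exact ⟨(hT v hv).1, h1.1, fun h => h1.2 ((Set.Finite.mem_toFinset _).mpr h)⟩
  -- the graph
  let φ : Additive Kˣ →+ (HeightOneSpectrum (𝓞 K) →₀ ZMod p) × ZMod p :=
    (MonoidHom.toAdditiveLeft (dv p (S ∪ T))).prod (MonoidHom.toAdditiveLeft χ)
  let H : Subgroup Kˣ := ⨅ v ∈ T, cong v 0
  let G : Submodule (ZMod p) ((HeightOneSpectrum (𝓞 K) →₀ ZMod p) × ZMod p) :=
    AddSubgroup.toZModSubmodule p (AddSubgroup.map φ (Subgroup.toAddSubgroup H))
  have hmem : ∀ x : Kˣ, (∀ v ∈ T, x ∈ cong v 0) → ((dv p (S ∪ T) x).toAdd, (χ x).toAdd) ∈ G := by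
    intro x hx
    refine ⟨Additive.ofMul x, ?_, rfl⟩
    change x ∈ H
    simp only [H, Subgroup.mem_iInf]
    exact hx
  have h01 : ((0, 1) : (HeightOneSpectrum (𝓞 K) →₀ ZMod p) × ZMod p) ∉ G := by
    rintro ⟨x', hxH, hx⟩
    set x : Kˣ := x'.toMul with hx'
    have hxH1 : x ∈ ⨅ v ∈ T, cong v 0 := hxH
    have hxH' : ∀ v ∈ T, x ∈ cong v 0 :=
      fun v hv => Subgroup.mem_iInf.mp (Subgroup.mem_iInf.mp hxH1 v) hv
    have h1 : (dv p (S ∪ T) x).toAdd = 0 := congrArg Prod.fst hx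
    have h2 : (χ x).toAdd = 1 := congrArg Prod.snd hx
    obtain ⟨y, hy⟩ := hTx x (fun v hv => by
      by_cases hvT : v ∈ T
      · rw [ord_eq_zero_of_mem_cong (hxH' v hvT)]
        exact dvd_zero _
      · have h3 := dv_apply (p := p) (S ∪ T) x (v := v) (by
          rw [Finset.mem_union, not_or]
          exact ⟨hv, hvT⟩)
        rw [h1, Finsupp.zero_apply] at h3
        exact (ZMod.intCast_zmod_eq_zero_iff_dvd _ p).mp h3.symm)
      (fun v hv => cong_zero_le_locPow p hp.out.ne_zero v (hT' v hv).2.2 (hxH' v hv))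
    rw [← hy, map_pow, toAdd_pow, nsmul_eq_mul, CharP.cast_eq_zero, zero_mul] at h2
    exact zero_ne_one h2
  obtain ⟨f, hf1, hf2⟩ := Submodule.exists_le_ker_of_notMem h01
  refine ⟨T, fun v => (f (0, 1))⁻¹ * f (Finsupp.single v 1, 0), hT', fun x hx => ?_⟩
  let g : (HeightOneSpectrum (𝓞 K) →₀ ZMod p) →+ ZMod p :=
    (AddMonoidHom.mulLeft ((f (0, 1))⁻¹)).comp
      ((f : (HeightOneSpectrum (𝓞 K) →₀ ZMod p) × ZMod p →+ ZMod p).comp
        (AddMonoidHom.inl (HeightOneSpectrum (𝓞 K) →₀ ZMod p) (ZMod p)))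
  have h1 := rayVal_comp g (S ∪ T) (fun v => Finsupp.single v (1 : ZMod p)) x
  apply Multiplicative.toAdd.injective
  refine h1.trans ?_
  rw [toAdd_inv]
  change (f (0, 1))⁻¹ * f ((dv p (S ∪ T) x).toAdd, 0) = _
  have h2 : f ((dv p (S ∪ T) x).toAdd, (χ x).toAdd) = 0 := hf2 (hmem x hx)
  have h3 : ((dv p (S ∪ T) x).toAdd, (χ x).toAdd) =
      ((dv p (S ∪ T) x).toAdd, (0 : ZMod p)) +
        (χ x).toAdd • ((0, 1) : (HeightOneSpectrum (𝓞 K) →₀ ZMod p) × ZMod p) := by
    rw [Prod.smul_mk, smul_zero, smul_eq_mul, mul_one, Prod.mk_add_mk, add_zero, zero_add]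
  rw [h3, map_add, map_smul, smul_eq_mul] at h2
  rw [eq_neg_of_add_eq_zero_left h2]
  field_simp

open Classical in
/-- **Grunwald's theorem for ray class characters of prime order.** Let `χ : Kˣ → ℤ/p` be trivial on all
`x` which are close to `1` at the places in `S` (a continuous character of order `p` of `∏_{v ∈ S} K_vˣ`, in
which `Kˣ` is dense). There are a finite set `T`, disjoint from `S`, and a ray class character `η` with
modulus on `S ∪ T`, tamely ramified at `T`, whose local component at `S` is `χ`: for `x ∈ Kˣ` with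
`x ≡ 1` modulo `T`, `∑_{v ∉ S ∪ T} ord_v(x) η(v) + χ(x) = 0`. -/
theorem grunwald_ray [hp : Fact p.Prime] (S B : Finset (HeightOneSpectrum (𝓞 K)))
    (χ : Kˣ →* Multiplicative (ZMod p)) {m : ℕ} (hχ : ∀ x : Kˣ, (∀ v ∈ S, x ∈ cong v m) → χ x = 1) :
    ∃ (T : Finset (HeightOneSpectrum (𝓞 K))) (η : HeightOneSpectrum (𝓞 K) → ZMod p),
      (∀ v ∈ T, v ∉ S ∧ v ∉ B ∧ (p : 𝓞 K) ∉ v.asIdeal) ∧ IsRay (S ∪ T) m η ∧
      ∀ x : Kˣ, (∀ v ∈ T, x ∈ cong v 0) → rayVal (S ∪ T) η x * χ x = 1 := by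
  obtain ⟨T, η, hT, h⟩ := exists_ray S B χ
  refine ⟨T, η, hT, fun x hx => ?_, fun x hx => by rw [h x hx, inv_mul_cancel]⟩
  rw [h x fun v hv => cong_anti v (Nat.zero_le m) (hx v (Finset.mem_union_right _ hv)),
    hχ x fun v hv => hx v (Finset.mem_union_left _ hv), inv_one]

/-- **Ray class characters with prescribed values**: for every finite set `S` of finite places and every
`f` there are a finite set `T`, disjoint from `S` (and from any finite set `B` and the places above `p`), and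
a ray class character `η` modulo the product of the `v ∈ T` with `η = f` on `S`. -/
theorem exists_ray_values [hp : Fact p.Prime] (S B : Finset (HeightOneSpectrum (𝓞 K)))
    (f : HeightOneSpectrum (𝓞 K) → ZMod p) :
    ∃ (T : Finset (HeightOneSpectrum (𝓞 K))) (η : HeightOneSpectrum (𝓞 K) → ZMod p),
      (∀ v ∈ T, v ∉ S ∧ v ∉ B ∧ (p : 𝓞 K) ∉ v.asIdeal) ∧ IsRay T 0 η ∧ ∀ v ∈ S, η v = f v := by
  classical
  obtain ⟨T, η, hT, h⟩ := exists_ray S B (rayVal ∅ fun v => if v ∈ S then f v else 0)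
  refine ⟨T, fun v => if v ∈ S then f v else η v, hT, fun x hx => ?_, fun v hv => if_pos hv⟩
  have h1 := h x hx
  rw [eq_inv_iff_mul_eq_one] at h1
  rw [← h1]
  apply Multiplicative.toAdd.injective
  rw [toAdd_mul, toAdd_rayVal, toAdd_rayVal, toAdd_rayVal, ← Finsupp.sum_add]
  refine Finsupp.sum_congr fun v _ => ?_
  by_cases hvS : v ∈ S
  · have hvT : v ∉ T := fun hvT => (hT v hvT).1 hvS
    simp [hvS, hvT]
  · by_cases hvT : v ∈ T
    · simp [hvS, hvT]
    · simp [hvS, hvT]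

end Fermat.Agent.Cor.GRU
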