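import Fermat.Agent.Corollaries.GW.Field
import Fermat.Agent.CFT.Global.Approx
import Fermat.Agent.CFT.SClass
import Fermat.Agent.LT.Ray

/-!
# Elements of `Kˣ` which are `p`-th powers at many places

`K` is a number field, `p` a prime.

* `exists_notMem_locPow`: if `b ∈ Kˣ` is not a `p`-th power, then for every finite set `S` of finite places
  there is a `v ∉ S` such that `b` is not a `p`-th power in `K_v`;
* `exists_aux`: for every finite `S` there is a finite set `T` disjoint from `S` such that every `x ∈ Kˣ`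
  whose orders outside `S` are divisible by `p` and which is a `p`-th power at the places in `T` is a
  `p`-th power.
-/

set_option autoImplicit false

namespace Fermat.Agent.Cor.GRU

open NumberField IsDedekindDomain HeightOneSpectrum WithZero
open Fermat.Agent.Cor.GW Fermat.Agent.Cor.ChebK
open Fermat.Agent.CFT.Global hiding ClTrivial ClTrivial.mono
open Fermat.Agent.CFT.SUnits

universe u

variable {K : Type u} [Field K] [NumberField K] {p : ℕ}

/-- Local `p`-th powers are `p`-th powers modulo `v`. -/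
theorem powMod_of_mem_locPow (hp : p.Prime) {v : HeightOneSpectrum (𝓞 K)} {b : Kˣ} {a : 𝓞 K}
    (hb : (b : K) = a) (h : b ∈ locPow p v) : PowMod p a v := by
  by_cases hav : a ∈ v.asIdeal
  · exact ⟨0, by rw [zero_pow hp.ne_zero, zero_sub]; exact neg_mem hav⟩
  have ha1 : v.valuation K (a : K) = 1 := by
    refine le_antisymm (v.valuation_le_one (K := K) a) (not_lt.mp fun h => hav ?_)
    exact (v.valuation_lt_one_iff_mem (K := K) a).mp h
  obtain ⟨y, hy⟩ := mem_locPow.mp h 0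
  have hlt : v.valuation K ((b / y ^ p : Kˣ) - 1 : K) < 1 := by
    refine hy.trans_lt ?_
    rw [← exp_zero, exp_lt_exp]
    norm_num
  have hq : v.valuation K ((b / y ^ p : Kˣ) : K) = 1 := by
    have e : ((b / y ^ p : Kˣ) : K) = ((b / y ^ p : Kˣ) - 1 : K) + 1 := by ring
    rw [e, Valuation.map_add_eq_of_lt_right _ (by rwa [map_one]), map_one]
  have hyp : v.valuation K (y : K) ^ p = 1 := by
    rw [Units.val_div_eq_div_val, Units.val_pow_eq_pow_val, map_div₀, map_pow, hb, ha1] at hq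
    rwa [one_div, inv_eq_one] at hq
  have hy1 : v.valuation K (y : K) = 1 := by
    rcases lt_trichotomy (v.valuation K (y : K)) 1 with h1 | h1 | h1
    · exact absurd hyp (pow_lt_one₀ zero_le h1 hp.ne_zero).ne
    · exact h1
    · exact absurd hyp (one_lt_pow₀ h1 hp.ne_zero).ne'
  obtain ⟨r, hr⟩ := v.exists_valuation_sub_lt_of_integer hy1.le 1
  refine ⟨r, (v.valuation_lt_one_iff_mem (K := K) _).mp ?_⟩
  have e1 : ((r ^ p - a : 𝓞 K) : K) = ((r : K) ^ p - (y : K) ^ p) -
      (y : K) ^ p * ((b / y ^ p : Kˣ) - 1 : K) := by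
    have e2 : ((r ^ p - a : 𝓞 K) : K) = (r : K) ^ p - a :=
      (map_sub (algebraMap (𝓞 K) K) (r ^ p) a).trans (by rw [map_pow])
    rw [e2, Units.val_div_eq_div_val, Units.val_pow_eq_pow_val, hb]
    have hy0 : (y : K) ≠ 0 := y.ne_zero
    field_simp
    ring
  refine lt_of_eq_of_lt (congrArg (v.valuation K) e1) ?_
  refine lt_of_le_of_lt (Valuation.map_sub _ _ _) (max_lt ?_ ?_)
  · obtain ⟨c, hc⟩ := sub_dvd_pow_sub_pow (⟨r, v.valuation_le_one (K := K) r⟩ :
      (v.valuation K).integer) ⟨y, hy1.le⟩ p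
    have hc' := congrArg Subtype.val hc
    have hc2 : (r : K) ^ p - (y : K) ^ p = ((r : K) - y) * c := hc'
    rw [hc2, map_mul]
    exact lt_of_le_of_lt (mul_le_of_le_one_right' c.2) hr
  · rw [map_mul, map_pow, hyp, one_mul]
    exact hlt

/-- **A non-`p`-th power is not a `p`-th power in `K_v` for some `v` outside a given finite set.** -/
theorem exists_notMem_locPow (hp : p.Prime) (S : Finset (HeightOneSpectrum (𝓞 K))) {b : Kˣ}
    (hb : ∀ c : Kˣ, c ^ p ≠ b) : ∃ v ∉ S, b ∉ locPow p v := by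
  by_contra hcon
  push Not at hcon
  obtain ⟨x, z, hz, hxz⟩ := IsFractionRing.div_surjective (A := 𝓞 K) (b : K)
  have hz0 : algebraMap (𝓞 K) K z ≠ 0 := by
    rw [Ne, map_eq_zero_iff _ RingOfIntegers.coe_injective]
    exact nonZeroDivisors.ne_zero hz
  obtain ⟨q, hq⟩ : ∃ q, p = q + 1 := ⟨p - 1, (Nat.succ_pred_prime hp).symm⟩
  set zu : Kˣ := Units.mk0 _ hz0 with hzu
  have e1 : ((b * zu ^ p : Kˣ) : K) = ((x * z ^ q : 𝓞 K) : K) := by
    have e2 : ((x * z ^ q : 𝓞 K) : K) = algebraMap (𝓞 K) K x * algebraMap (𝓞 K) K z ^ q :=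
      (map_mul (algebraMap (𝓞 K) K) x (z ^ q)).trans (by rw [map_pow])
    rw [e2, Units.val_mul, Units.val_pow_eq_pow_val, hzu, Units.val_mk0, ← hxz, hq, pow_succ]
    field_simp
  have hd : HasDensity {v : HeightOneSpectrum (𝓞 K) | ¬ PowMod p (x * z ^ q) v} 0 := by
    apply hasDensity_of_finite
    refine (Finset.finite_toSet S).subset fun v hv => ?_
    by_contra hvS
    exact hv (powMod_of_mem_locPow hp e1
      (mul_mem (hcon v hvS) (pow_mem_locPow p v zu)))
  have h8 : ¬ 8 ∣ p := by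
    intro h8
    have h2 : 2 ∣ p := (by norm_num : 2 ∣ 8).trans h8
    rw [(Nat.prime_dvd_prime_iff_eq Nat.prime_two hp).mp h2 |>.symm] at h8
    omega
  obtain ⟨c, hc⟩ := exists_pow_of_not_dvd hp.pos h8 hd
  have hc0 : c ≠ 0 := by
    rintro rfl
    rw [zero_pow hp.ne_zero, ← e1] at hc
    exact (b * zu ^ p).ne_zero hc.symm
  refine hb (Units.mk0 c hc0 / zu) (Units.ext ?_)
  rw [_root_.div_pow, Units.val_div_eq_div_val, Units.val_pow_eq_pow_val, Units.val_mk0, hc, ← e1,
    Units.val_mul, mul_div_cancel_right₀ _ (zu ^ p).ne_zero]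

/-- `K(S, p)` modulo `p`-th powers is finite. -/
theorem relIndex_ne_zero (hp : p.Prime) (S : Finset (HeightOneSpectrum (𝓞 K))) :
    (powMonoidHom p : Kˣ →* Kˣ).range.relIndex
      (selS (S : Set (HeightOneSpectrum (𝓞 K))) p) ≠ 0 := by
  rw [relIndex_selS _ hp.ne_zero, index_pow_sunits S hp.ne_zero]
  have : NeZero p := ⟨hp.ne_zero⟩
  refine mul_ne_zero (mul_ne_zero (pow_ne_zero _ hp.ne_zero) Nat.card_pos.ne') Nat.card_pos.ne'

/-- **The auxiliary places.** -/
theorem exists_aux (hp : p.Prime) (S B : Finset (HeightOneSpectrum (𝓞 K))) :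
    ∃ T : Finset (HeightOneSpectrum (𝓞 K)), (∀ v ∈ T, v ∉ S ∧ v ∉ B) ∧
      ∀ x : Kˣ, (∀ v ∉ S, (p : ℤ) ∣ ord v x) → (∀ v ∈ T, x ∈ locPow p v) →
        ∃ y : Kˣ, y ^ p = x := by
  classical
  set V := selS (S : Set (HeightOneSpectrum (𝓞 K))) p with hV
  set P := (powMonoidHom p : Kˣ →* Kˣ).range.subgroupOf V with hP
  have hfin : Finite (V ⧸ P) := Nat.finite_of_card_ne_zero (relIndex_ne_zero hp S)
  have := Fintype.ofFinite (V ⧸ P)
  choose g hg using QuotientGroup.mk_surjective (s := P)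
  obtain ⟨T, hT1, hT2⟩ : ∃ T : Finset (HeightOneSpectrum (𝓞 K)), (∀ v ∈ T, v ∉ S ∧ v ∉ B) ∧
      ∀ e, (∀ c : Kˣ, c ^ p ≠ g e) → ∃ v ∈ T, (g e : Kˣ) ∉ locPow p v := by
    have hv : ∀ e : V ⧸ P, (∀ c : Kˣ, c ^ p ≠ g e) →
        ∃ v ∉ S ∪ B, (g e : Kˣ) ∉ locPow p v :=
      fun e he => exists_notMem_locPow hp _ he
    choose w hw1 hw2 using hv
    refine ⟨Finset.univ.biUnion fun e : V ⧸ P => if he : (∀ c : Kˣ, c ^ p ≠ g e) then
      {w e he} else ∅, ?_, ?_⟩
    · intro v hv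
      rw [Finset.mem_biUnion] at hv
      obtain ⟨e, -, hv⟩ := hv
      by_cases he : ∀ c : Kˣ, c ^ p ≠ g e
      · rw [dif_pos he, Finset.mem_singleton] at hv
        have h1 := hw1 e he
        rw [← hv, Finset.mem_union, not_or] at h1
        exact h1
      · rw [dif_neg he] at hv
        exact absurd hv (Finset.notMem_empty v)
    · intro e he
      refine ⟨w e he, ?_, hw2 e he⟩
      rw [Finset.mem_biUnion]
      exact ⟨e, Finset.mem_univ e, by rw [dif_pos he]; exact Finset.mem_singleton_self _⟩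
  refine ⟨T, hT1, fun x hx hxT => ?_⟩
  set e : V := ⟨x, fun v hv => hx v (by simpa using hv)⟩ with he
  have hge : ((g (e : V ⧸ P) : V) : V ⧸ P) = (e : V ⧸ P) := hg _
  obtain ⟨z, hz⟩ := QuotientGroup.eq.mp hge
  have hz' : z ^ p = (g (e : V ⧸ P) : Kˣ)⁻¹ * x := hz
  by_contra hcon
  push Not at hcon
  obtain ⟨v, hvT, hv⟩ := hT2 (e : V ⧸ P) (fun c hc => by
    apply hcon (c * z)
    rw [mul_pow, hc, hz', mul_inv_cancel_left])
  apply hv
  have h1 : (g (e : V ⧸ P) : Kˣ) = x / z ^ p := by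
    rw [hz', div_eq_mul_inv, mul_inv, inv_inv, mul_comm x, mul_assoc, inv_mul_cancel, mul_one]
  rw [h1]
  exact div_mem (hxT v hvT) (pow_mem_locPow p v z)

end Fermat.Agent.Cor.GRU
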